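/-
Row S34 -- the unipotent adic eigenmodules from the wall A2 ALONE (helper330).

`Fermat.Agent.S34.H789.HasAdicEigenModulesU` (the deliverable "adic eigenmodule on which inertia
at `q ∥ N`, `q ≠ p`, acts unipotently" consumed by the S34 glue of helper789/733/193) is proved
here from the Kummer form of the wall A2 (`H789.A2KummerStatement`), WITHOUT the lattice input
`LAT` of the S30 skeleton: the eigenmodule is the one of the adic module layer
(`S30.H330.adicModule_of_torsion`), fed by the `p`-primary Kummer map, and unipotency is the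
quadratic relation for the extra operator `2 · id` with eigenvalue `2` (trick of helper789).

* `exists_adicEigenModuleU`          : abstract form, from the inputs (K'), (F), (P), (T), (Sm),
  (GH) of the adic module layer and unipotency on `J₀(N)[p^∞]`;
* `hasAdicEigenModulesU_of_a2Kummer` : `A2KummerStatement → HasAdicEigenModulesU`, all other
  inputs discharged from main (S18 nodes, Kummer packages, FIN, (P), ...);
* `S34_of_a2Kummer`, `S34_of_wall`, `S34_of_parts` : the frozen statement S34 from the wall A2 in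
  its three forms (`A2KummerStatement`; `KummerTarget` unfolded; `AlgSS + IF + ModSS`).
-/
import Fermat.Agent.S30.H330.AdicGate
import Fermat.Agent.S18.Mod.H216.NodeMod
import Fermat.Agent.S18.H438.NodeAlg
import Fermat.Agent.S34.H789.GateParts

set_option autoImplicit false
set_option linter.overlappingInstances false

noncomputable section

namespace Fermat.Agent.S34.H330

open Fermat.Agent.S29 ModularCurve AlgebraicCurve
open Fermat.Agent.S30.H330 Fermat.Agent.S30.H990 Fermat.Agent.S34.H789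

/-- **The unipotent adic eigenmodule**, from the inputs of the adic module layer and unipotency
of the inertia groups at the primes `q ≠ p`, `q ∥ N` on the `p`-power torsion of `J₀(N)(ℚ̄)`. -/
theorem exists_adicEigenModuleU {p : ℕ} [Fact p.Prime] {N : ℕ} [NeZero N] {S : Finset ℕ}
    (hpS : p ∈ S) (hNS : ∀ q : ℕ, q.Prime → q ∣ N → q ∈ S)
    {O : Type} [CommRing O] [IsDomain O] [IsDiscreteValuationRing O]
    [IsAdicComplete (IsLocalRing.maximalIdeal O) O] [Finite (IsLocalRing.ResidueField O)]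
    [CharZero O] (hpO : (p : O) ∈ IsLocalRing.maximalIdeal O)
    (χ : CuspForm.heckeAlgebra N 2 (↑S : Set ℕ) →+* O)
    (hK : KummerInjStatement N p) (hF : FinStatement N p) (hP : ParEigenStatement N S O χ)
    (hT : TorsionRelations N p) (hSm : SmoothStatement N) (hGH : GaloisHeckeStatement N)
    (hU : ∀ q : ℕ, q.Prime → q ≠ p → q ∣ N → ¬ q ^ 2 ∣ N →
      ∀ P : ValuationSubring (AlgebraicClosure ℚ), P.LiesOverPrime q →
        ∀ σ ∈ P.inertiaSubgroupIn ℚ, ∀ x : JZero N, (∃ n : ℕ, p ^ n • x = 0) →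
          σ • (σ • x - x) = σ • x - x) :
    ∃ E : AdicEigenModule p N S O χ,
      ∀ q : ℕ, q.Prime → q ≠ p → q ∣ N → ¬ q ^ 2 ∣ N → EigenUnipAt E q := by
  classical
  obtain ⟨f, hf0, hf, hfe⟩ := exists_eigenHom_of_inj hpS hNS hpO χ hK hP
  -- index set: the Hecke operators away from `S`, and one extra index for `2 · id`
  let t : Option {ℓ : Nat.Primes // (ℓ : ℕ) ∉ S} → JZero N →+ JZero N := fun i =>
    match i with
    | none => (2 : ℕ) • AddMonoidHom.id (JZero N)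
    | some i => (heckeOperatorBar N i.1).toAddMonoidHom
  let a : Option {ℓ : Nat.Primes // (ℓ : ℕ) ∉ S} → O := fun i =>
    match i with
    | none => 2
    | some i => eigenvalue χ (i.1 : ℕ)
  have ht : ∀ i (σ : AlgebraicClosure ℚ ≃ₐ[ℚ] AlgebraicClosure ℚ) (x : JZero N),
      σ • t i x = t i (σ • x) := by
    intro i σ x
    cases i with
    | none =>
      show σ • ((2 : ℕ) • x) = (2 : ℕ) • (σ • x)
      rw [two_nsmul, two_nsmul, smul_add]
    | some i => exact hGH σ i.1 x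
  have hfe' : ∀ i x, t i (f x) = f (algebraMap O (FractionRing O) (a i) * x) := by
    intro i x
    cases i with
    | none =>
      show (2 : ℕ) • f x = f (algebraMap O (FractionRing O) (2 : O) * x)
      rw [map_ofNat, two_mul, map_add, two_nsmul]
    | some i => exact hfe i.1 i.2 x
  obtain ⟨M, i1, i2, i3, i4, ρ, hnt, hcont, hunr, hquad⟩ :=
    adicModule_of_torsion (J := JZero N) (Fact.out : p.Prime) hpO (fun x => hSm x) hF t ht a f
      hf0 hf hfe'
  have hdvd : ∀ ℓ : ℕ, ℓ.Prime → ¬ ℓ ∣ N → ℓ ≠ p → ¬ ℓ ∣ N * p := by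
    intro ℓ hℓ hℓN hℓp h
    rcases (Nat.Prime.dvd_mul hℓ).mp h with h | h
    · exact hℓN h
    · exact hℓp ((Nat.prime_dvd_prime_iff_eq hℓ (Fact.out : p.Prime)).mp h)
  refine ⟨{
    M := M
    ρ := ρ
    cont := hcont
    unram := fun q hq hqN hqp P hP σ hσ =>
      hunr σ fun x hx => (hT q hq (hdvd q hq hqN hqp) P hP).1 σ hσ x hx
    frob := fun ℓ hℓ hℓN hℓS A hA σ hσ => by
      have hℓS' : ℓ ∉ S := fun h => hℓS (Finset.mem_coe.mpr h)
      have hℓp : ℓ ≠ p := fun h => hℓS' (h ▸ hpS)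
      have h1 := hquad (some ⟨⟨ℓ, hℓ⟩, hℓS'⟩) ℓ σ
        fun x hx => (hT ℓ hℓ (hdvd ℓ hℓ hℓN hℓp) A hA).2 σ hσ x hx
      have h2 : a (some ⟨⟨ℓ, hℓ⟩, hℓS'⟩) = χ (CuspForm.heckeAlgebra.T hℓ hℓN hℓS) :=
        eigenvalue_eq χ hℓ hℓN hℓS
      rw [h2] at h1
      exact h1 }, ?_⟩
  intro q hq hqp hqN hq2 P hP σ hσ
  have h1 := hquad none 1 σ (fun x hx => by
    have h := hU q hq hqp hqN hq2 P hP σ hσ x hx
    show σ • σ • x - (2 : ℕ) • (σ • x) + 1 • x = 0
    rw [smul_sub] at h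
    rw [one_nsmul, two_nsmul]
    have h' : σ • σ • x = σ • x - x + σ • x := eq_add_of_sub_eq h
    rw [h']
    abel)
  show (ρ σ - 1) * (ρ σ - 1) = 0
  have h2 : a none = 2 := rfl
  rw [h2, Nat.cast_one, one_smul] at h1
  rw [sub_mul, mul_sub, mul_one, one_mul, ← h1, two_smul]
  abel

/-- The open nodes of row S18 are closed (helper216, helper438): the S18 hub for all moduli. -/
theorem coreFamily : Fermat.Agent.S29.H222.CoreFamily :=
  Fermat.Agent.S18.H694.coreFamily_of_nodes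
    (fun M _ _ _ hℓM A hA => Fermat.Agent.S18.Mod.H216.node_mod M hℓM A hA)
    (fun M => Fermat.Agent.S18.H438.node_alg M)

/-- **`HasAdicEigenModulesU` from the wall A2 alone.** -/
theorem hasAdicEigenModulesU_of_a2Kummer (hA2 : A2KummerStatement) : HasAdicEigenModulesU := by
  intro p hp N _ S hpS hNS O _ _ _ _ _ _ hpO χ
  have : NeZero p := ⟨hp.out.ne_zero⟩
  refine exists_adicEigenModuleU hpS hNS hpO χ
    (kummerInjStatement_of_k3fin N p (fun n => Fermat.Agent.S29.H942.finStatement N (p ^ n)))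
    (finStatement N p) (parEigenStatement hNS χ)
    (torsionRelations_of_coreFamily coreFamily N p)
    (smoothStatement N) (galoisHeckeStatement N) ?_
  intro q hq hqp hqN hq2 P hP σ hσ x hx
  refine jZero_unip_of_a2Kummer N p hp.out.ne_zero σ
    (fun n => hA2 N p q hp.out hq hqp hqN hq2 P hP σ hσ n) x ?_
  obtain ⟨n, hn⟩ := hx
  refine ⟨n, ?_⟩
  rw [← Nat.cast_pow, natCast_zsmul]
  exact hn

/-- **The frozen statement S34 from the wall A2 (Kummer form, helper789's `A2KummerStatement`).** -/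
theorem S34_of_a2Kummer (hA2 : A2KummerStatement)
    {𝒪 : Type} [CommRing 𝒪] [IsDomain 𝒪] [IsDiscreteValuationRing 𝒪]
    [IsAdicComplete (IsLocalRing.maximalIdeal 𝒪) 𝒪] [Finite (IsLocalRing.ResidueField 𝒪)]
    [CharZero 𝒪]
    {p : ℕ} (hp : p.Prime) (hp𝒪 : (p : 𝒪) ∈ IsLocalRing.maximalIdeal 𝒪)
    {N : ℕ} [NeZero N] {S : Finset ℕ} (hpS : p ∈ S) (hNS : ∀ q : ℕ, q.Prime → q ∣ N → q ∈ S)
    {θ : CuspForm.heckeAlgebra N 2 (↑S : Set ℕ) →+* IsLocalRing.ResidueField 𝒪}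
    {T : Type} [CommRing T] [IsLocalRing T] [IsNoetherianRing T]
    [IsAdicComplete (IsLocalRing.maximalIdeal T) T] [Algebra 𝒪 T] [IsLocalHom (algebraMap 𝒪 T)]
    [Module.Finite 𝒪 T] [Module.Free 𝒪 T]
    (H : CuspForm.HeckeGaloisRepDatum N (↑S : Set ℕ) 𝒪 θ T)
    (q : ℕ) (hq : q.Prime) (hqp : q ≠ p) (hqN : q ∣ N) (hq2 : ¬ q ^ 2 ∣ N) :
    H.ρ.IsUnipotentOnInertiaAt q :=
  result_of_U_SS (hasAdicEigenModulesU_of_a2Kummer hA2) Fermat.Agent.S31.H838.ssStatement
    hp hp𝒪 hpS hNS H q hq hqp hqN hq2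

/-- **The frozen statement S34 from the wall A2** in the form `A2.KummerTarget` (unfolded) for
`q ∥ N`, `0 < m`, `q ∤ m`. -/
theorem S34_of_wall
    (hwall : ∀ (N q m : ℕ), q.Prime → q ∣ N → ¬ q ^ 2 ∣ N → N ≠ 0 → 0 < m → ¬ q ∣ m →
      ∀ P : ValuationSubring (AlgebraicClosure ℚ), P.LiesOverPrime q →
        ∀ τ ∈ P.inertiaSubgroupIn ℚ, ∀ f : modularFunctionFieldBar N, f ≠ 0 →
          (∀ v : Place (AlgebraicClosure ℚ) (modularFunctionFieldBar N), (m : ℤ) ∣ v.ord f) →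
          ∃ h : modularFunctionFieldBar N, h ≠ 0 ∧
            arithmeticRingAut (modularFunctionFieldFull N) τ
                (arithmeticRingAut (modularFunctionFieldFull N) τ f) * f =
              h ^ m * (arithmeticRingAut (modularFunctionFieldFull N) τ f) ^ 2)
    {𝒪 : Type} [CommRing 𝒪] [IsDomain 𝒪] [IsDiscreteValuationRing 𝒪]
    [IsAdicComplete (IsLocalRing.maximalIdeal 𝒪) 𝒪] [Finite (IsLocalRing.ResidueField 𝒪)]
    [CharZero 𝒪]
    {p : ℕ} (hp : p.Prime) (hp𝒪 : (p : 𝒪) ∈ IsLocalRing.maximalIdeal 𝒪)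
    {N : ℕ} [NeZero N] {S : Finset ℕ} (hpS : p ∈ S) (hNS : ∀ q : ℕ, q.Prime → q ∣ N → q ∈ S)
    {θ : CuspForm.heckeAlgebra N 2 (↑S : Set ℕ) →+* IsLocalRing.ResidueField 𝒪}
    {T : Type} [CommRing T] [IsLocalRing T] [IsNoetherianRing T]
    [IsAdicComplete (IsLocalRing.maximalIdeal T) T] [Algebra 𝒪 T] [IsLocalHom (algebraMap 𝒪 T)]
    [Module.Finite 𝒪 T] [Module.Free 𝒪 T]
    (H : CuspForm.HeckeGaloisRepDatum N (↑S : Set ℕ) 𝒪 θ T)
    (q : ℕ) (hq : q.Prime) (hqp : q ≠ p) (hqN : q ∣ N) (hq2 : ¬ q ^ 2 ∣ N) :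
    H.ρ.IsUnipotentOnInertiaAt q :=
  S34_of_a2Kummer (a2KummerStatement_of_kummerTarget hwall) hp hp𝒪 hpS hNS H q hq hqp hqN hq2

/-- **The frozen statement S34 from the three interface statements of the wall A2**
(`A2.AlgSSStatement`, `A2.IFStatement`, `A2.ModSSStatement`). -/
theorem S34_of_parts (hALG : Fermat.Agent.A2.AlgSSStatement)
    (hIF : Fermat.Agent.A2.IFStatement) (hMOD : Fermat.Agent.A2.ModSSStatement)
    {𝒪 : Type} [CommRing 𝒪] [IsDomain 𝒪] [IsDiscreteValuationRing 𝒪]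
    [IsAdicComplete (IsLocalRing.maximalIdeal 𝒪) 𝒪] [Finite (IsLocalRing.ResidueField 𝒪)]
    [CharZero 𝒪]
    {p : ℕ} (hp : p.Prime) (hp𝒪 : (p : 𝒪) ∈ IsLocalRing.maximalIdeal 𝒪)
    {N : ℕ} [NeZero N] {S : Finset ℕ} (hpS : p ∈ S) (hNS : ∀ q : ℕ, q.Prime → q ∣ N → q ∈ S)
    {θ : CuspForm.heckeAlgebra N 2 (↑S : Set ℕ) →+* IsLocalRing.ResidueField 𝒪}
    {T : Type} [CommRing T] [IsLocalRing T] [IsNoetherianRing T]
    [IsAdicComplete (IsLocalRing.maximalIdeal T) T] [Algebra 𝒪 T] [IsLocalHom (algebraMap 𝒪 T)]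
    [Module.Finite 𝒪 T] [Module.Free 𝒪 T]
    (H : CuspForm.HeckeGaloisRepDatum N (↑S : Set ℕ) 𝒪 θ T)
    (q : ℕ) (hq : q.Prime) (hqp : q ≠ p) (hqN : q ∣ N) (hq2 : ¬ q ^ 2 ∣ N) :
    H.ρ.IsUnipotentOnInertiaAt q :=
  S34_of_wall
    (fun N q m hq hqN hq2 hN hm hqm =>
      kummerTarget_of_parts789 hALG hIF hMOD N q m hq hqN hq2 hN hm hqm)
    hp hp𝒪 hpS hNS H q hq hqp hqN hq2

end Fermat.Agent.S34.H330
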